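/-
S59 PRE-WORK / E7 (iv-b) GE7-ORD-MULT (helper25), file 1: the SIGN of a variable change.

Two variable changes `C`, `C'` of a Weierstrass curve `W` over a field of characteristic zero with
the same effect `C' • W = C • W` on a curve with `c₄ c₆ ≠ 0` differ by a sign `C'.u = ± C.u`;
for the sign `-` the remaining coordinates are forced
(`r' = r`, `s' = -s - a₁`, `t' = -t - a₃ - r a₁`) and the induced maps on points differ by the
NEGATION of the target curve:

  `vcX C' X = vcX C X`,  `vcY C' X Y = vcY C X (negY_{C • W} X Y)`.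

Used for the action of the full decomposition group at a prime of multiplicative reduction on the
Tate uniformisation (the unramified quadratic twist of the non-split case).
-/
import Mathlib
import Fermat.Agent.S05.VarChange

set_option autoImplicit false

namespace Fermat.Agent.GE7.OrdMult.Sign

open WeierstrassCurve Fermat.Agent.S05

variable {F : Type*} [Field F]

/-- `a ^ 4 = b ^ 4`, `a ^ 6 = b ^ 6`, `b ≠ 0` ⟹ `a = ± b`. -/
theorem eq_or_eq_neg_of_pow_four_six {a b : F} (hb : b ≠ 0) (h4 : a ^ 4 = b ^ 4)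
    (h6 : a ^ 6 = b ^ 6) : a = b ∨ a = -b := by
  have h2 : a ^ 2 = b ^ 2 := by
    have hb4 : b ^ 4 ≠ 0 := pow_ne_zero 4 hb
    have e : b ^ 4 * a ^ 2 = b ^ 4 * b ^ 2 := by
      calc b ^ 4 * a ^ 2 = a ^ 4 * a ^ 2 := by rw [h4]
        _ = a ^ 6 := by ring
        _ = b ^ 6 := h6
        _ = b ^ 4 * b ^ 2 := by ring
    exact mul_left_cancel₀ hb4 e
  have hfac : (a - b) * (a + b) = 0 := by
    have : (a - b) * (a + b) = a ^ 2 - b ^ 2 := by ring
    rw [this, h2, sub_self]
  rcases mul_eq_zero.1 hfac with h | h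
  · exact Or.inl (sub_eq_zero.1 h)
  · exact Or.inr (eq_neg_of_add_eq_zero_left h)

/-- **the sign**: `C' • W = C • W` with `c₄(W) c₆(W) ≠ 0` forces `C'.u = ± C.u`. -/
theorem u_eq_or_eq_neg (W : WeierstrassCurve F) {C C' : VariableChange F}
    (h : C' • W = C • W) (hc₄ : W.c₄ ≠ 0) (hc₆ : W.c₆ ≠ 0) :
    (C'.u : F) = (C.u : F) ∨ (C'.u : F) = -(C.u : F) := by
  have h4 := congrArg WeierstrassCurve.c₄ h
  have h6 := congrArg WeierstrassCurve.c₆ h
  rw [variableChange_c₄, variableChange_c₄] at h4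
  rw [variableChange_c₆, variableChange_c₆] at h6
  have h4' := mul_right_cancel₀ hc₄ h4
  have h6' := mul_right_cancel₀ hc₆ h6
  have hb : ((C.u⁻¹ : Fˣ) : F) ≠ 0 := Units.ne_zero _
  rcases eq_or_eq_neg_of_pow_four_six hb h4' h6' with e | e
  · left
    rw [Units.val_inv_eq_inv_val, Units.val_inv_eq_inv_val] at e
    exact inv_injective e
  · right
    rw [Units.val_inv_eq_inv_val, Units.val_inv_eq_inv_val, ← inv_neg] at e
    exact inv_injective e

variable [CharZero F]

/-- **the negated variable change**: for the sign `-`, the coordinates `r s t` are forced. -/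
theorem rst_of_u_eq_neg (W : WeierstrassCurve F) {C C' : VariableChange F}
    (h : C' • W = C • W) (hu : (C'.u : F) = -(C.u : F)) :
    C'.r = C.r ∧ C'.s = -C.s - W.a₁ ∧ C'.t = -C.t - W.a₃ - C.r * W.a₁ := by
  have h1 := congrArg WeierstrassCurve.a₁ h
  have h2 := congrArg WeierstrassCurve.a₂ h
  have h3 := congrArg WeierstrassCurve.a₃ h
  rw [variableChange_a₁, variableChange_a₁] at h1
  rw [variableChange_a₂, variableChange_a₂] at h2
  rw [variableChange_a₃, variableChange_a₃] at h3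
  have hinv : ((C'.u⁻¹ : Fˣ) : F) = -((C.u⁻¹ : Fˣ) : F) := by
    rw [Units.val_inv_eq_inv_val, Units.val_inv_eq_inv_val, hu, inv_neg]
  rw [hinv] at h1 h2 h3
  have hu0 : ((C.u⁻¹ : Fˣ) : F) ≠ 0 := Units.ne_zero _
  have h2' : (2 : F) ≠ 0 := two_ne_zero
  have h3' : (3 : F) ≠ 0 := three_ne_zero
  have hs : C'.s = -C.s - W.a₁ := by
    have e : ((C.u⁻¹ : Fˣ) : F) * (-(W.a₁ + 2 * C'.s)) = ((C.u⁻¹ : Fˣ) : F) * (W.a₁ + 2 * C.s) := by
      rw [← h1]; ring
    have e' := mul_left_cancel₀ hu0 e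
    have e'' : 2 * C'.s = 2 * (-C.s - W.a₁) := by linear_combination -e'
    exact mul_left_cancel₀ h2' e''
  have hr : C'.r = C.r := by
    have e : ((C.u⁻¹ : Fˣ) : F) ^ 2 * (W.a₂ - C'.s * W.a₁ + 3 * C'.r - C'.s ^ 2) =
        ((C.u⁻¹ : Fˣ) : F) ^ 2 * (W.a₂ - C.s * W.a₁ + 3 * C.r - C.s ^ 2) := by
      rw [← h2]; ring
    have e' := mul_left_cancel₀ (pow_ne_zero 2 hu0) e
    rw [hs] at e'
    have e'' : 3 * C'.r = 3 * C.r := by linear_combination e'
    exact mul_left_cancel₀ h3' e''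
  have ht : C'.t = -C.t - W.a₃ - C.r * W.a₁ := by
    have e : ((C.u⁻¹ : Fˣ) : F) ^ 3 * (-(W.a₃ + C'.r * W.a₁ + 2 * C'.t)) =
        ((C.u⁻¹ : Fˣ) : F) ^ 3 * (W.a₃ + C.r * W.a₁ + 2 * C.t) := by
      rw [← h3]; ring
    have e' := mul_left_cancel₀ (pow_ne_zero 3 hu0) e
    rw [hr] at e'
    have e'' : 2 * C'.t = 2 * (-C.t - W.a₃ - C.r * W.a₁) := by linear_combination -e'
    exact mul_left_cancel₀ h2' e''
  exact ⟨hr, hs, ht⟩

/-- for the sign `-`, the `X`-coordinate maps agree. -/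
theorem vcX_of_u_eq_neg (W : WeierstrassCurve F) {C C' : VariableChange F}
    (h : C' • W = C • W) (hu : (C'.u : F) = -(C.u : F)) (X : F) : vcX C' X = vcX C X := by
  obtain ⟨hr, -, -⟩ := rst_of_u_eq_neg W h hu
  unfold vcX
  rw [hu, hr]
  ring

/-- for the sign `-`, the `Y`-coordinate maps differ by the NEGATION of `C • W`. -/
theorem vcY_of_u_eq_neg (W : WeierstrassCurve F) {C C' : VariableChange F}
    (h : C' • W = C • W) (hu : (C'.u : F) = -(C.u : F)) (X Y : F) :
    vcY C' X Y = vcY C X ((C • W).toAffine.negY X Y) := by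
  obtain ⟨hr, hs, ht⟩ := rst_of_u_eq_neg W h hu
  have hu0 : (C.u : F) ≠ 0 := Units.ne_zero _
  unfold vcY
  rw [hu, hs, ht, WeierstrassCurve.Affine.negY]
  show _ = (C.u : F) ^ 3 * (-Y - (C • W).a₁ * X - (C • W).a₃) + (C.u : F) ^ 2 * C.s * X + C.t
  rw [variableChange_a₁, variableChange_a₃, Units.val_inv_eq_inv_val]
  field_simp
  ring

end Fermat.Agent.GE7.OrdMult.Sign
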