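/-
S59 PRE-WORK / E7 (iv-b) GE7-ORD-MULT (helper25), file 2: **equivariance of the Tate
parametrisation up to a SIGN** under isometric ring endomorphisms of `K` fixing `q`.

`K` complete ultrametric, char. 0; `W/ℤ`, `T : TateUnif W K` (`T.C • W_K = E_q`); `φ : K →+* K`
isometric with `φ q = q`. Then `φ (T.C)` is another variable change `W_K → E_q`, hence
`φ (T.C).u = ε · (T.C).u` with `ε = ± 1` (`Sign.u_eq_or_eq_neg`: `c₄ c₆ ≠ 0` on a Tate curve), and

* `toTate_map_some` : `T.toTate (x, y) = P(u)` ⟹ `T.toTate (φ x, φ y) = ε • P(φ u)`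
  (`ε = -1`: the two variable changes differ by the negation of `E_q`, `Sign.vcY_of_u_eq_neg`);
* `toTateQ_smul`    : for `ι : ℚ̄ →+* K`, `σ ∈ G_ℚ` with `φ ∘ ι = ι ∘ σ`:
  `toTateQ T ι P = P(u)` ⟹ `toTateQ T ι (σ • P) = ε • P(φ u)`  (all `ℚ̄`-points `P`).

No hypothesis on the residue characteristic (the inertia-only statement with `ε = 1` is helper70's
`GF/ETate/Main.toTate_toK_smul`).
-/
import Mathlib
import Fermat.Agent.GE7.OrdMult.Sign
import Fermat.Agent.GZ.S12.LocalTate
import Fermat.Agent.GZ.Tate.T2.Equivar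
import Fermat.Agent.GF.ETate.VarFix

set_option autoImplicit false
set_option linter.unusedSectionVars false

noncomputable section

namespace Fermat.Agent.GE7.OrdMult.Equiv

open WeierstrassCurve WeierstrassCurve.Affine WeierstrassCurve.Affine.Point
open scoped WeierstrassCurve.Affine
open Fermat.Agent.S05
open Fermat.Agent.GZ.Tate Fermat.Agent.GZ.Tate.T2 Fermat.Agent.GZ.Tate.T4
open Fermat.Agent.GZ.S12.LocalTate Fermat.Agent.GZ.S12.Local

universe u

section Coord

variable {F : Type*} [Field F] (C : VariableChange F) (φ : F →+* F)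

theorem map_vcX (X : F) : φ (vcX C X) = vcX (C.map φ) (φ X) := by
  unfold vcX
  rw [map_add, map_mul, map_pow]
  rfl

theorem map_vcY (X Y : F) : φ (vcY C X Y) = vcY (C.map φ) (φ X) (φ Y) := by
  unfold vcY
  rw [map_add, map_add, map_mul, map_mul, map_mul, map_pow, map_pow]
  rfl

end Coord

variable {K : Type u} [NormedField K] [IsUltrametricDist K] [CompleteSpace K] [CharZero K]
  [DecidableEq K]
variable {W : WeierstrassCurve ℤ} (T : TateUnif W K) (φ : K →+* K) (hφ : ∀ x, ‖φ x‖ = ‖x‖)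
  (hφq : φ T.q = T.q)

include hφ hφq in
/-- `φ (T.C)` is again a variable change `W_K → E_q`. -/
theorem map_C_smul :
    (T.C.map φ) • (W.map (Int.castRingHom K)) = T.C • (W.map (Int.castRingHom K)) := by
  set WK : WeierstrassCurve K := W.map (Int.castRingHom K) with hWK
  have hWmap : WK.map φ = WK := by
    rw [hWK, WeierstrassCurve.map_map]
    congr 1
    exact RingHom.ext_int _ _
  have hEmap : (tateCurve T.q).map φ = tateCurve T.q := by
    rw [Equivar.map_tateCurve φ hφ, hφq]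
  have h1 := WeierstrassCurve.map_variableChange WK T.C φ
  rw [hWmap, T.hC, hEmap, ← T.hC] at h1
  exact h1

include T in
theorem c₄_ne_zero : (W.map (Int.castRingHom K)).c₄ ≠ 0 := by
  intro h
  have h1 : ‖(T.C • (W.map (Int.castRingHom K))).c₄‖ = 1 := by
    rw [T.hC]; exact T0.norm_pinned_c₄ T.q T.norm_q
  rw [variableChange_c₄, h, mul_zero, norm_zero] at h1
  exact zero_ne_one h1

include T in
theorem c₆_ne_zero : (W.map (Int.castRingHom K)).c₆ ≠ 0 := by
  intro h
  have h1 : ‖(T.C • (W.map (Int.castRingHom K))).c₆‖ = 1 := by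
    rw [T.hC]; exact T0.norm_pinned_c₆ T.q T.norm_q
  rw [variableChange_c₆, h, mul_zero, norm_zero] at h1
  exact zero_ne_one h1

include hφ hφq in
/-- **the sign of `φ` on the Tate uniformisation.** -/
theorem map_u_eq_or_eq_neg :
    φ ((T.C.u : Kˣ) : K) = ((T.C.u : Kˣ) : K) ∨ φ ((T.C.u : Kˣ) : K) = -((T.C.u : Kˣ) : K) :=
  Sign.u_eq_or_eq_neg (W.map (Int.castRingHom K)) (map_C_smul T φ hφ hφq) (c₄_ne_zero T)
    (c₆_ne_zero T)

/-- the parameter of an affine point is admissible. -/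
theorem isAdm_of_toTate_some {x y : K}
    {h : (W.map (Int.castRingHom K)).toAffine.Nonsingular x y} {u : Kˣ}
    (hP : T.toTate (.some x y h) = Final.tateP T.q T.q_ne T.norm_q u) : IsAdm T.q (u : K) := by
  by_contra hna
  have h0 : Final.tateP T.q T.q_ne T.norm_q u = 0 :=
    Hom.tateP_of_not_isAdm T.q (Final.hns T.q_ne T.norm_q) hna
  rw [h0] at hP
  have : (Affine.Point.some x y h : (W.map (Int.castRingHom K)).toAffine.Point) = 0 :=
    T.toTate.injective (by rw [hP, _root_.map_zero])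
  exact Affine.Point.some_ne_zero _ this

/-- coordinates of an affine point through its parameter. -/
theorem coords_of_toTate_some {x y : K}
    {h : (W.map (Int.castRingHom K)).toAffine.Nonsingular x y} {u : Kˣ}
    (hP : T.toTate (.some x y h) = Final.tateP T.q T.q_ne T.norm_q u) :
    x = vcX T.C (X T.q u) ∧ y = vcY T.C (X T.q u) (Y T.q u) := by
  have hadm := isAdm_of_toTate_some T hP
  rw [Final.tateP_of_isAdm T.q_ne T.norm_q hadm] at hP
  have hP' : (Affine.Point.some x y h : (W.map (Int.castRingHom K)).toAffine.Point) =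
      T.toTate.symm (.some (X T.q u) (Y T.q u) (Final.hns T.q_ne T.norm_q u hadm)) := by
    rw [← hP, AddEquiv.symm_apply_apply]
  obtain ⟨h1, e1⟩ := T.toTate_symm_some (Final.hns T.q_ne T.norm_q u hadm)
  rw [e1] at hP'
  injection hP' with hx hy
  exact ⟨hx, hy⟩

include hφ hφq in
/-- **equivariance up to sign, affine points of `W_K`.** -/
theorem toTate_map_some :
    ∃ ε : ℤ, (ε = 1 ∨ ε = -1) ∧
      ∀ (x y : K) (h : (W.map (Int.castRingHom K)).toAffine.Nonsingular x y)
        (h' : (W.map (Int.castRingHom K)).toAffine.Nonsingular (φ x) (φ y)) (u : Kˣ),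
        T.toTate (.some x y h) = Final.tateP T.q T.q_ne T.norm_q u →
        T.toTate (.some (φ x) (φ y) h') =
          ε • Final.tateP T.q T.q_ne T.norm_q (Units.map (φ : K →* K) u) := by
  have hsm := map_C_smul T φ hφ hφq
  -- common part
  have common : ∀ (x y : K) (h : (W.map (Int.castRingHom K)).toAffine.Nonsingular x y)
      (u : Kˣ), T.toTate (.some x y h) = Final.tateP T.q T.q_ne T.norm_q u →
      IsAdm T.q ((Units.map (φ : K →* K) u : Kˣ) : K) ∧
        φ x = vcX (T.C.map φ) (X T.q ((Units.map (φ : K →* K) u : Kˣ) : K)) ∧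
        φ y = vcY (T.C.map φ) (X T.q ((Units.map (φ : K →* K) u : Kˣ) : K))
          (Y T.q ((Units.map (φ : K →* K) u : Kˣ) : K)) := by
    intro x y h u hP
    have hadm := isAdm_of_toTate_some T hP
    obtain ⟨hx, hy⟩ := coords_of_toTate_some T hP
    refine ⟨?_, ?_, ?_⟩
    · rw [Units.coe_map]
      exact (Equivar.isAdm_map_fix_iff φ T.q hφq u).2 hadm
    · rw [Units.coe_map, hx, map_vcX]
      show vcX (T.C.map φ) (φ (X T.q u)) = vcX (T.C.map φ) (X T.q (φ u))
      rw [Equivar.map_X_fix φ hφ T.q hφq]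
    · rw [Units.coe_map, hy, map_vcY]
      show vcY (T.C.map φ) (φ (X T.q u)) (φ (Y T.q u)) =
        vcY (T.C.map φ) (X T.q (φ u)) (Y T.q (φ u))
      rw [Equivar.map_X_fix φ hφ T.q hφq, Equivar.map_Y_fix φ hφ T.q hφq]
  rcases map_u_eq_or_eq_neg T φ hφ hφq with hu | hu
  · -- sign `+`
    refine ⟨1, Or.inl rfl, fun x y h h' u hP => ?_⟩
    obtain ⟨hadm', hx, hy⟩ := common x y h u hP
    have hC : T.C.map φ = T.C :=
      Fermat.Agent.GF.ETate.VarFix.variableChange_eq_of_smul_eq _ hsm (Units.ext hu)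
    rw [hC] at hx hy
    rw [one_zsmul, Final.tateP_of_isAdm T.q_ne T.norm_q hadm', ← AddEquiv.eq_symm_apply]
    obtain ⟨h2, e2⟩ := T.toTate_symm_some (Final.hns T.q_ne T.norm_q _ hadm')
    rw [e2]
    exact Hom.some_congr hx hy _ _
  · -- sign `-`
    refine ⟨-1, Or.inr rfl, fun x y h h' u hP => ?_⟩
    obtain ⟨hadm', hx, hy⟩ := common x y h u hP
    have hu' : (((T.C.map φ).u : Kˣ) : K) = -((T.C.u : Kˣ) : K) := hu
    rw [Sign.vcX_of_u_eq_neg _ hsm hu'] at hx
    rw [Sign.vcY_of_u_eq_neg _ hsm hu'] at hy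
    rw [neg_one_zsmul, Final.tateP_of_isAdm T.q_ne T.norm_q hadm', Affine.Point.neg_some,
      ← AddEquiv.eq_symm_apply]
    obtain ⟨h2, e2⟩ := T.toTate_symm_some
      ((Affine.nonsingular_neg _ _).2 (Final.hns T.q_ne T.norm_q _ hadm'))
    rw [e2]
    refine Hom.some_congr hx ?_ _ _
    rw [hy]
    congr 1
    rw [T.hC]

/-! ### `ℚ̄`-points -/

variable (ι : Qb →+* K) (σ : Qb ≃ₐ[ℚ] Qb) (hφι : ∀ x : Qb, φ (ι x) = ι (σ x))

include hφ hφq hφι in
/-- **equivariance up to sign, `ℚ̄`-points**: `toTateQ (σ • P) = ε • φ_*(toTateQ P)` in parameter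
form. -/
theorem toTateQ_smul :
    ∃ ε : ℤ, (ε = 1 ∨ ε = -1) ∧
      ∀ (P : ((W.map (Int.castRingHom ℚ))⁄Qb).Point) (u : Kˣ),
        toTateQ T ι P = Final.tateP T.q T.q_ne T.norm_q u →
        toTateQ T ι (σ • P) =
          ε • Final.tateP T.q T.q_ne T.norm_q (Units.map (φ : K →* K) u) := by
  obtain ⟨ε, hε, key⟩ := toTate_map_some T φ hφ hφq
  refine ⟨ε, hε, fun P u hP => ?_⟩
  rcases P with _ | ⟨a, b, h⟩
  · have e0 : (Point.zero : ((W.map (Int.castRingHom ℚ))⁄Qb).Point) = 0 := rfl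
    rw [e0] at hP ⊢
    rw [_root_.map_zero] at hP
    have h0' : Final.tateP T.q T.q_ne T.norm_q (Units.map (φ : K →* K) u) = 0 :=
      (Equivar.tateP_map_fix_eq_zero_iff φ T.q hφq (Final.hns T.q_ne T.norm_q) u).2 hP.symm
    have hσ0 : σ • (0 : ((W.map (Int.castRingHom ℚ))⁄Qb).Point) = 0 := rfl
    rw [h0', smul_zero, hσ0, _root_.map_zero]
  · obtain ⟨hK, e1⟩ := ptK_some W ι h
    obtain ⟨hK', e2⟩ : ∃ h', ptK W ι (σ • (Point.some a b h :
        ((W.map (Int.castRingHom ℚ))⁄Qb).Point)) = Point.some (ι (σ a)) (ι (σ b)) h' := ⟨_, rfl⟩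
    have hP' : T.toTate (.some (ι a) (ι b) hK) = Final.tateP T.q T.q_ne T.norm_q u := by
      rw [← hP]
      show _ = T.toTate (ptK W ι _)
      rw [e1]
    have hK'' : (W.map (Int.castRingHom K)).toAffine.Nonsingular (φ (ι a)) (φ (ι b)) := by
      rw [hφι, hφι]; exact hK'
    have := key (ι a) (ι b) hK hK'' u hP'
    rw [← this]
    show T.toTate (ptK W ι _) = _
    rw [e2]
    congr 1
    exact Hom.some_congr (hφι a).symm (hφι b).symm _ _

end Fermat.Agent.GE7.OrdMult.Equiv
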