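/-
S59 PRE-WORK / E7 (iv-b) GE7-ORD-MULT (helper25), file 3 = MAIN: the finite-level
STRICT-ORDINARY structure of the torsion of `W(ℚ̄)` at a place `A | p` of MULTIPLICATIVE reduction.

`C := E⁰_A` (helper9 `GZ/S12/Local.e0`, the frozen zero component). On main already:
`E⁰_A` is `D_A`-stable (`Local.smul_mem_e0_iff`), `σ P - P ∈ E⁰_A` for `σ ∈ I_A`
(`Local.smul_sub_mem_e0`), `E⁰_A[n]` and `E[n]/E⁰_A[n]` are cyclic of order `n`
(`LocalTors`, helper87). NEW here (Tate curve over `ℂ_[p]`, `Equiv.toTateQ_smul`): for every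
`σ ∈ D_A` there is a sign `ε = ± 1` with

* `smul_eq_of_mem_e0`  : `σ P = (ε a) • P` for `P ∈ E⁰_A[N]`, if `σ μ = μ ^ a` on `μ_N`
                          (`x = ε χ(σ)` on the line);
* `smul_sub_zsmul_mem_e0` : `σ P - ε • P ∈ E⁰_A` for every torsion point `P`
                          (`z = ε` on the quotient; `z² = 1`: STRICT ordinarity).

`ordAtMult` packages everything in ONE pointwise Prop `OrdAtMult W p` (twin of
`GE/Top/ECAssembly.UnipInertia`), from which the frozen `IsStrictOrdinaryAt p` of the `p`-adic Tate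
module follows by transfer to the inverse limit.
-/
import Mathlib
import Fermat.Agent.GE7.OrdMult.Equiv
import Fermat.Agent.GZ.S12.LocalTors
import Fermat.Agent.GZ.S12.LocEmb
import Fermat.Agent.GF.ETate.Param

set_option autoImplicit false
set_option linter.unusedSectionVars false

noncomputable section

namespace Fermat.Agent.GE7.OrdMult

open WeierstrassCurve WeierstrassCurve.Affine WeierstrassCurve.Affine.Point
open scoped WeierstrassCurve.Affine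
open Fermat.Agent.S05
open Fermat.Agent.GZ.Tate Fermat.Agent.GZ.Tate.T2 Fermat.Agent.GZ.Tate.T4
open Fermat.Agent.GZ.S12.LocalTate Fermat.Agent.GZ.S12.Local

universe u

/-! ### the abstract core over a complete algebraically closed `K ⊇ ι(ℚ̄)` -/

section Core

variable {K : Type u} [NormedField K] [IsUltrametricDist K] [CompleteSpace K] [CharZero K]
  [DecidableEq K] [IsAlgClosed K]
variable {W : WeierstrassCurve ℤ} (T : TateUnif W K) (ι : Qb →+* K) {A : ValuationSubring Qb}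
  (hA : ∀ x : Qb, x ∈ A ↔ ‖ι x‖ ≤ 1) {ℓ : ℕ} (h : Mult W A ℓ)
variable (φ : K →+* K) (hφ : ∀ x, ‖φ x‖ = ‖x‖) (σ : Qb ≃ₐ[ℚ] Qb)
  (hφι : ∀ x : Qb, φ (ι x) = ι (σ x)) (ε : ℤ)
  (key : ∀ (P : ((W.map (Int.castRingHom ℚ))⁄Qb).Point) (u : Kˣ),
    toTateQ T ι P = Final.tateP T.q T.q_ne T.norm_q u →
    toTateQ T ι (σ • P) = ε • Final.tateP T.q T.q_ne T.norm_q (Units.map (φ : K →* K) u))

theorem tateP_zpow' (u : Kˣ) (z : ℤ) :
    Final.tateP T.q T.q_ne T.norm_q (u ^ z) = z • Final.tateP T.q T.q_ne T.norm_q u :=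
  T3.Core.P_zpow (Final.tateP T.q T.q_ne T.norm_q) (Final.tateP_mul T.q_ne T.norm_q) u z

theorem tateP_pow' (u : Kˣ) (n : ℕ) :
    Final.tateP T.q T.q_ne T.norm_q (u ^ n) = n • Final.tateP T.q T.q_ne T.norm_q u :=
  T3.Core.P_pow (Final.tateP T.q T.q_ne T.norm_q) (Final.tateP_mul T.q_ne T.norm_q) u n

/-- a unit parameter of an `N`-torsion point is an `N`-th root of unity. -/
theorem pow_eq_one_of_unit {N : ℕ} {u : Kˣ} (hu : ‖(u : K)‖ = 1)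
    (hN : N • Final.tateP T.q T.q_ne T.norm_q u = 0) : u ^ N = 1 := by
  rw [← tateP_pow', Final.tateP_eq_zero_iff, Subgroup.mem_zpowers_iff] at hN
  obtain ⟨m, hm⟩ := hN
  have h1 := congrArg (fun w : Kˣ => ‖(w : K)‖) hm
  simp only [Units.val_zpow_eq_zpow_val, Units.val_mk0, norm_zpow, Units.val_pow_eq_pow_val,
    norm_pow, hu, one_pow] at h1
  have hq0 : (0 : ℝ) ≤ ‖T.q‖ := norm_nonneg _
  have hm0 : m = 0 := (zpow_eq_one_iff_right₀ hq0 (ne_of_lt T.norm_q)).1 h1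
  rw [hm0, zpow_zero] at hm
  exact hm.symm

include hA hφι key in
/-- **the action on the line**: `σ P = (ε a) • P` on `E⁰_A[N]` when `σ = (·)^a` on `μ_N`. -/
theorem smul_eq_of_mem_e0 {N : ℕ} (hN : N ≠ 0) {a : ℕ}
    (hμ : ∀ μ : Qb, μ ^ N = 1 → σ μ = μ ^ a)
    (P : ((W.map (Int.castRingHom ℚ))⁄Qb).Point) (hP0 : P ∈ e0 h) (hNP : N • P = 0) :
    σ • P = (ε * (a : ℤ)) • P := by
  obtain ⟨u, hu1, hPu⟩ := (mem_e0_iff_exists_unit T ι hA h hN P hNP).1 hP0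
  have hNu : N • Final.tateP T.q T.q_ne T.norm_q u = 0 := by
    rw [← hPu, ← map_nsmul, hNP, _root_.map_zero]
  have huN : u ^ N = 1 := pow_eq_one_of_unit T hu1 hNu
  -- `u` is the image of a root of unity of `ℚ̄`
  have : NeZero (N : Qb) := ⟨by exact_mod_cast hN⟩
  have : NeZero N := ⟨hN⟩
  obtain ⟨ζ₀, hζ₀⟩ := HasEnoughRootsOfUnity.exists_primitiveRoot Qb N
  have hζK : IsPrimitiveRoot (ι ζ₀) N := hζ₀.map_of_injective ι.injective
  have huN' : (u : K) ^ N = 1 := by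
    rw [← Units.val_pow_eq_pow_val, huN, Units.val_one]
  obtain ⟨i, -, hi⟩ := hζK.eq_pow_of_pow_eq_one huN'
  have hμ' : (ζ₀ ^ i) ^ N = 1 := by
    rw [← pow_mul, mul_comm, pow_mul, hζ₀.pow_eq_one, one_pow]
  have hφu : Units.map (φ : K →* K) u = u ^ a := by
    apply Units.ext
    rw [Units.coe_map, Units.val_pow_eq_pow_val]
    show φ (u : K) = (u : K) ^ a
    rw [← hi, ← map_pow, hφι, hμ _ hμ', map_pow, map_pow]
  apply toTateQ_injective T ι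
  rw [key P u hPu, hφu, tateP_pow', ← hPu, map_zsmul, mul_smul, natCast_zsmul]

include hA hφ key in
/-- **the action on the quotient**: `σ P - ε • P ∈ E⁰_A` for every torsion point `P`. -/
theorem smul_sub_zsmul_mem_e0 {N : ℕ} (hN : N ≠ 0)
    (P : ((W.map (Int.castRingHom ℚ))⁄Qb).Point) (hNP : N • P = 0) :
    σ • P - ε • P ∈ e0 h := by
  obtain ⟨ζ, t, hζ, ht⟩ := exists_roots T.q_ne hN
  have hQK : N • toTateQ T ι P = 0 := by rw [← map_nsmul, hNP, _root_.map_zero]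
  obtain ⟨i, k, -, -, hik⟩ := T3.FinalN.torsionN_eq_pt T.q_ne T.norm_q hN hζ ht hQK
  generalize ζ ^ i * t ^ k = w at hik
  have h1 : ‖((Units.map (φ : K →* K) w * w⁻¹ : Kˣ) : K)‖ = 1 := by
    rw [Units.val_mul, Units.coe_map, Units.val_inv_eq_inv_val, norm_mul, norm_inv]
    show ‖φ (w : K)‖ * ‖(w : K)‖⁻¹ = 1
    rw [hφ]
    exact mul_inv_cancel₀ (norm_ne_zero_iff.2 w.ne_zero)
  have hv1 : ‖(((Units.map (φ : K →* K) w * w⁻¹) ^ ε : Kˣ) : K)‖ = 1 := by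
    rw [Units.val_zpow_eq_zpow_val, norm_zpow, h1, one_zpow]
  refine inZeroComponentAt_of_unit T ι hA h _ hv1 ?_
  have e1 : toTateQ T ι (σ • P - ε • P) =
      ε • (Final.tateP T.q T.q_ne T.norm_q (Units.map (φ : K →* K) w) -
        Final.tateP T.q T.q_ne T.norm_q w) := by
    rw [map_sub, map_zsmul, key P w hik, hik, smul_sub]
  have e2 : Final.tateP T.q T.q_ne T.norm_q (Units.map (φ : K →* K) w * w⁻¹) =
      Final.tateP T.q T.q_ne T.norm_q (Units.map (φ : K →* K) w) -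
        Final.tateP T.q T.q_ne T.norm_q w := by
    rw [Final.tateP_mul,
      T3.Core.P_inv (Final.tateP T.q T.q_ne T.norm_q) (Final.tateP_mul T.q_ne T.norm_q),
      sub_eq_add_neg]
  rw [e1, tateP_zpow', e2]

end Core

/-! ### the pointwise strict-ordinary structure at a multiplicative prime -/

/-- **the finite-level strict-ordinary structure at `p`** (pointwise, twin of
`GE/Top/ECAssembly.UnipInertia`): at every place `A | p` a `D_A`-stable subgroup `C` of `W(ℚ̄)`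
with `C[p^n]` and `E[p^n]/C[p^n]` cyclic of order `p^n`, inertia trivial on the quotient, and
`D_A` acting by `ε χ` on `C[p^n]`, by `ε = ± 1` on the quotient. -/
def OrdAtMult (W : WeierstrassCurve ℤ) (p : ℕ) : Prop :=
  ∀ A : ValuationSubring Qb, A.LiesOverPrime p →
    ∃ (C : AddSubgroup ((W.map (Int.castRingHom ℚ))⁄Qb).Point) (δ : (Qb ≃ₐ[ℚ] Qb) → ℤ),
      (∀ σ ∈ A.decompositionSubgroup ℚ, δ σ = 1 ∨ δ σ = -1) ∧
      (∀ σ ∈ A.decompositionSubgroup ℚ, ∀ P, σ • P ∈ C ↔ P ∈ C) ∧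
      (∀ n : ℕ, ∃ g ∈ C, addOrderOf g = p ^ n ∧
        ∀ P ∈ C, p ^ n • P = 0 → ∃ i < p ^ n, P = i • g) ∧
      (∀ n : ℕ, ∃ y : ((W.map (Int.castRingHom ℚ))⁄Qb).Point, p ^ n • y = 0 ∧
        (∀ x, p ^ n • x = 0 → ∃ m : ℕ, x - m • y ∈ C) ∧ ∀ m : ℕ, m • y ∈ C → p ^ n ∣ m) ∧
      (∀ σ ∈ A.inertiaSubgroupIn ℚ, ∀ P, σ • P - P ∈ C) ∧
      (∀ σ ∈ A.decompositionSubgroup ℚ, ∀ n a : ℕ, (∀ μ : Qb, μ ^ p ^ n = 1 → σ μ = μ ^ a) →
        (∀ P ∈ C, p ^ n • P = 0 → σ • P = (δ σ * (a : ℤ)) • P) ∧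
          ∀ P, p ^ n • P = 0 → σ • P - δ σ • P ∈ C)

section Padic

open Fermat.Agent.GF.ETate.Ext Fermat.Agent.GC.Local.KR

variable {p : ℕ} [hp : Fact p.Prime]

local instance instDecEqCp : DecidableEq ℂ_[p] := Classical.decEq _

/-- the data at a place `A | p`: an embedding `ι` cutting out `A`, a Tate uniformisation with
`q ∈ ℚ_[p]`, and for every `σ ∈ D_A` an isometric extension `φ` of `σ` to `ℂ_[p]` fixing `q`. -/
theorem exists_setup {W : WeierstrassCurve ℤ} {A : ValuationSubring Qb} (h : Mult W A p) :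
    ∃ (T : TateUnif W ℂ_[p]) (ι : Qb →+* ℂ_[p]), (∀ x : Qb, x ∈ A ↔ ‖ι x‖ ≤ 1) ∧
      ∀ σ ∈ A.decompositionSubgroup ℚ, ∃ φ : ℂ_[p] →+* ℂ_[p], (∀ x, ‖φ x‖ = ‖x‖) ∧
        φ T.q = T.q ∧ ∀ x : Qb, φ (ι x) = ι (σ x) := by
  obtain ⟨q', T, hTq, -⟩ :=
    Fermat.Agent.GF.ETate.Param.exists_tateUnif_padic (p := p) W h.disc_ne h.dvd_disc h.not_dvd_c₄
  obtain ⟨σ₀, hσ₀, hσ₀n, -⟩ := Fermat.Agent.GZ.S12.LocEmb.exists_conj_embK p A h.lies
  refine ⟨T, (embK p).comp ((σ₀ : Qb ≃+* Qb) : Qb →+* Qb), hσ₀n, fun σ hσ => ?_⟩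
  have hconj : σ₀ * σ * σ₀⁻¹ ∈ (padicPlace p).decompositionSubgroup ℚ :=
    (Fermat.Agent.GZ.S12.LocEmb.mem_decompositionSubgroup_conj_iff hσ₀ σ).1 hσ
  obtain ⟨τ, hτ⟩ := exists_local_of_mem_decomposition p hconj
  refine ⟨((extK p τ : ℂ_[p] ≃+* ℂ_[p]) : ℂ_[p] →+* ℂ_[p]), norm_extK p τ, ?_, fun x => ?_⟩
  · rw [hTq]; exact extK_algebraMap p τ q'
  · show extK p τ (embK p (σ₀ x)) = embK p (σ₀ (σ x))
    rw [extK_embK, hτ]
    congr 1
    show σ₀ (σ (σ₀⁻¹ (σ₀ x))) = σ₀ (σ x)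
    rw [AlgEquiv.aut_inv, AlgEquiv.symm_apply_apply]

/-- **GE7-ORD-MULT**: the strict-ordinary structure of the `p`-power torsion of `W(ℚ̄)` at a prime
`p` of multiplicative reduction. -/
theorem ordAtMult (W : WeierstrassCurve ℤ) (hΔ : W.Δ ≠ 0) (hpΔ : (p : ℤ) ∣ W.Δ)
    (hc₄ : ¬ (p : ℤ) ∣ W.c₄) : OrdAtMult W p := by
  intro A hA
  have h : Mult W A p := ⟨hp.out, hA, hΔ, hpΔ, hc₄⟩
  obtain ⟨T, ι, hι, hsetup⟩ := exists_setup h
  -- the sign of every element of `D_A`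
  have hsign : ∀ σ ∈ A.decompositionSubgroup ℚ, ∃ ε : ℤ, (ε = 1 ∨ ε = -1) ∧
      ∃ φ : ℂ_[p] →+* ℂ_[p], (∀ x, ‖φ x‖ = ‖x‖) ∧ (∀ x : Qb, φ (ι x) = ι (σ x)) ∧
        ∀ (P : ((W.map (Int.castRingHom ℚ))⁄Qb).Point) (u : ℂ_[p]ˣ),
          toTateQ T ι P = Final.tateP T.q T.q_ne T.norm_q u →
          toTateQ T ι (σ • P) =
            ε • Final.tateP T.q T.q_ne T.norm_q (Units.map (φ : ℂ_[p] →* ℂ_[p]) u) := by
    intro σ hσ
    obtain ⟨φ, hφ, hφq, hφι⟩ := hsetup σ hσ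
    obtain ⟨ε, hε, key⟩ := Equiv.toTateQ_smul T φ hφ hφq ι σ hφι
    exact ⟨ε, hε, φ, hφ, hφι, key⟩
  classical
  let δ : (Qb ≃ₐ[ℚ] Qb) → ℤ := fun σ =>
    if hσ : σ ∈ A.decompositionSubgroup ℚ then (hsign σ hσ).choose else 1
  have hδ : ∀ σ (hσ : σ ∈ A.decompositionSubgroup ℚ), δ σ = (hsign σ hσ).choose := by
    intro σ hσ
    simp only [δ, dif_pos hσ]
  have hcard : ∀ n : ℕ, n ≠ 0 →
      Nat.card {P : ((W.map (Int.castRingHom ℚ))⁄Qb).Point // n • P = 0} = n ^ 2 :=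
    fun n hn => card_torsion_qbar W hΔ hn
  have hb : ∀ n : ℕ, n ≠ 0 → ∀ Q : ((W.map (Int.castRingHom ℚ))⁄Qb).Point, n • Q = 0 →
      (Q ∈ e0 h ↔ ∃ u : ℂ_[p]ˣ, ‖(u : ℂ_[p])‖ = 1 ∧
        toTateQ T ι Q = Final.tateP T.q T.q_ne T.norm_q u) :=
    fun n hn Q hQ => mem_e0_iff_exists_unit T ι hι h hn Q hQ
  have hpn : ∀ n : ℕ, p ^ n ≠ 0 := fun n => pow_ne_zero n hp.out.ne_zero
  refine ⟨e0 h, δ, ?_, ?_, ?_, ?_, ?_, ?_⟩
  · intro σ hσ
    rw [hδ σ hσ]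
    exact (hsign σ hσ).choose_spec.1
  · intro σ hσ P
    exact smul_mem_e0_iff h hσ P
  · intro n
    exact Fermat.Agent.GZ.S12.LocalTors.exists_gen_e0 T.q_ne T.norm_q (e0 h) (toTateQ T ι)
      (toTateQ_injective T ι) (hpn n) (hcard _ (hpn n)) (hb _ (hpn n))
  · intro n
    exact Fermat.Agent.GZ.S12.LocalTors.exists_quot_gen T.q_ne T.norm_q (e0 h) (toTateQ T ι)
      (toTateQ_injective T ι) (hpn n) (hcard _ (hpn n)) (hb _ (hpn n))
  · intro σ hσ P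
    exact smul_sub_mem_e0 h hσ P
  · intro σ hσ n a hμ
    obtain ⟨-, φ, hφ, hφι, key⟩ := (hsign σ hσ).choose_spec
    rw [hδ σ hσ]
    refine ⟨fun P hP hnP => ?_, fun P hnP => ?_⟩
    · exact smul_eq_of_mem_e0 T ι hι h φ σ hφι _ key (hpn n) hμ P hP hnP
    · exact smul_sub_zsmul_mem_e0 T ι hι h φ hφ σ _ key (hpn n) P hnP

end Padic

end Fermat.Agent.GE7.OrdMult
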