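/-
S59 PRE-WORK / E7 (iv-b) GE7-ORD-MULT (helper25), file 4 = PLUG: `OrdAtMult W p` (file 3) feeds
helper64's `GE7/TateAbs/Ord.OrdData` on `E := W(ℚ̄)`, hence the abstract Tate module of `W` is
STRICTLY ORDINARY at a prime `p` of multiplicative reduction (frozen
`GaloisRepAdic.IsStrictOrdinaryAt p`), for every `p` (no `p ≠ 2`).

* `exists_cyc_exponent` : every `σ ∈ G_ℚ` acts on `μ_N(ℚ̄)` by a power `a`;
* `ordData_of_ordAtMult`, `ordData_mult` : `TateAbs.OrdData W(ℚ̄) p`;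
* `isStrictOrdinaryAt_tateRep_mult` : `(tateRep W(ℚ̄) p hcard hlev).IsStrictOrdinaryAt p`.
-/
import Mathlib
import Fermat.Agent.GE7.OrdMult.Main
import Fermat.Agent.GE7.TateAbs.Ord

set_option autoImplicit false
set_option linter.unusedSectionVars false

noncomputable section

namespace Fermat.Agent.GE7.OrdMult

open WeierstrassCurve WeierstrassCurve.Affine WeierstrassCurve.Affine.Point
open scoped WeierstrassCurve.Affine
open Fermat.Agent.GZ.S12.Local Fermat.Agent.GE7.TateAbs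

/-- every automorphism acts on the `N`-th roots of unity of `ℚ̄` by a power. -/
theorem exists_cyc_exponent (σ : Qb ≃ₐ[ℚ] Qb) {N : ℕ} (hN : N ≠ 0) :
    ∃ a : ℕ, ∀ μ : Qb, μ ^ N = 1 → σ μ = μ ^ a := by
  have : NeZero (N : Qb) := ⟨by exact_mod_cast hN⟩
  have : NeZero N := ⟨hN⟩
  obtain ⟨ζ₀, hζ₀⟩ := HasEnoughRootsOfUnity.exists_primitiveRoot Qb N
  have h1 : (σ ζ₀) ^ N = 1 := by rw [← map_pow, hζ₀.pow_eq_one, map_one]
  obtain ⟨a, -, ha⟩ := hζ₀.eq_pow_of_pow_eq_one h1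
  refine ⟨a, fun μ hμ => ?_⟩
  obtain ⟨i, -, rfl⟩ := hζ₀.eq_pow_of_pow_eq_one hμ
  rw [map_pow, ← ha, ← pow_mul, ← pow_mul, mul_comm]

variable {W : WeierstrassCurve ℤ} {p : ℕ} [hp : Fact p.Prime]

/-- `OrdAtMult` in helper64's levelwise shape. -/
theorem ordData_of_ordAtMult (h : OrdAtMult W p) :
    OrdData ((W.map (Int.castRingHom ℚ))⁄Qb).Point p := by
  intro A hA
  obtain ⟨C, δ, -, hst, hcyc, -, hin, hD⟩ := h A hA
  refine ⟨C, δ, ⟨?_, ?_, ?_, ?_, ?_⟩⟩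
  · intro σ hσ P hP
    exact (hst σ hσ P).2 hP
  · intro n
    obtain ⟨g, hg, hord, hgen⟩ := hcyc n
    refine ⟨g, hg, hord, fun P hP hnP => ?_⟩
    obtain ⟨i, -, hi⟩ := hgen P hP hnP
    exact ⟨i, hi⟩
  · intro σ hσ n P _
    exact hin σ hσ P
  · intro σ hσ n P hnP
    obtain ⟨a, ha⟩ := exists_cyc_exponent σ (pow_ne_zero n hp.out.ne_zero)
    exact (hD σ hσ n a ha).2 P hnP
  · intro σ hσ n a ha P hP hnP
    exact (hD σ hσ n a ha).1 P hP hnP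

/-- **`OrdData` on `W(ℚ̄)` at a prime of multiplicative reduction.** -/
theorem ordData_mult (W : WeierstrassCurve ℤ) (hΔ : W.Δ ≠ 0) (hpΔ : (p : ℤ) ∣ W.Δ)
    (hc₄ : ¬ (p : ℤ) ∣ W.c₄) : OrdData ((W.map (Int.castRingHom ℚ))⁄Qb).Point p :=
  ordData_of_ordAtMult (ordAtMult W hΔ hpΔ hc₄)

/-- **E7 (iv-b)**: the `p`-adic Tate module of `W` is strictly ordinary at a prime `p` of
multiplicative reduction (frozen shape). -/
theorem isStrictOrdinaryAt_tateRep_mult (W : WeierstrassCurve ℤ) (hΔ : W.Δ ≠ 0)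
    (hpΔ : (p : ℤ) ∣ W.Δ) (hc₄ : ¬ (p : ℤ) ∣ W.c₄)
    (hcard : ∀ n, Nat.card (lvl ((W.map (Int.castRingHom ℚ))⁄Qb).Point p n) = p ^ (2 * n))
    (hlev : LevelFinite ((W.map (Int.castRingHom ℚ))⁄Qb).Point p) :
    (tateRep ((W.map (Int.castRingHom ℚ))⁄Qb).Point p hcard hlev).IsStrictOrdinaryAt p :=
  isStrictOrdinaryAt_tateRep hcard hlev (ordData_mult W hΔ hpΔ hc₄)

end Fermat.Agent.GE7.OrdMult
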